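import Fermat.Agent.S36.Eng.Spec

/-!
# S36 / MOD3 — `unique_α`, `unique_β` are FORMAL consequences of the other fields (helper250)

Vocabulary of `S36/Eng/Spec.lean` (architect helper996).  `B = chart R {x}`, `B' = chart R {x'}`.

`unique_of_res` : let `𝔪` be a triple point of `B` and `𝔪'` a maximal ideal of `B` with
`α B' ∩ 𝔪 ⊆ 𝔪'`.  Then `𝔪' = 𝔪`, as soon as

* `B ⊆ V₁, V₂, V₃`, `w` is a uniformiser of `V₁`, `V₃`, `w = unit · t ^ (q - 1)` at `V₂`, `Qep3`
  (so every closed point of the special fibre lies on one of the three components),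
* `α B' ⊆ B`, `B` is integral over `α B'` (`chart_α`, `int_α`),
* `B = α B' + (B ∩ 𝔪_{V₁})`, `B = α B' + (B ∩ 𝔪_{V₂})` (`res_α₁`, `res_α₂`),
* `α (N_α y) ≡ y ^ q` modulo `𝔪_{V₃}` for the units `y` of `V₃` (`nr_α₂`), `q ≠ 0`.

The statement is symmetric: with `(V₃, V₂, V₁)`, `β`, `res_β₃`, `res_β₂`, `nr_β₂` it gives
`unique_β`.  Mathlib + `normAlong` only; no going-down, no noetherian hypothesis.
-/

set_option autoImplicit false
set_option linter.style.haveILetI false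
set_option linter.unusedSectionVars false
set_option synthInstance.maxHeartbeats 400000
set_option maxHeartbeats 1600000

noncomputable section

namespace Fermat.Agent.S36.H250

open Fermat.Agent.S18.H138 (chart)
open Fermat.Agent.S36.Eng

section Basic

variable {R F : Type*} [CommRing R] [Field F] [Algebra R F]

/-- An element integral over `R[S]` lies in every valuation subring containing `R` and `S`. -/
theorem mem_valuationSubring_of_mem_chart (V : ValuationSubring F) {S : Set F}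
    (hbase : ∀ r : R, algebraMap R F r ∈ V) (hS : ∀ s ∈ S, s ∈ V) {b : F}
    (hb : b ∈ chart R S) : b ∈ V := by
  have hle : ∀ a ∈ Algebra.adjoin R S, a ∈ V := by
    intro a ha
    induction ha using Algebra.adjoin_induction with
    | mem y hy => exact hS y hy
    | algebraMap r => exact hbase r
    | add y z _ _ hy hz => exact V.add_mem _ _ hy hz
    | mul y z _ _ hy hz => exact V.mul_mem _ _ hy hz
  obtain ⟨p, hp, hpb⟩ := (Fermat.Agent.S18.H138.mem_chart.mp hb)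
  let φ : Algebra.adjoin R S →+* V :=
    { toFun := fun a => ⟨(a : F), hle a a.2⟩
      map_one' := rfl
      map_mul' := fun _ _ => rfl
      map_zero' := rfl
      map_add' := fun _ _ => rfl }
  have hint : IsIntegral V b := by
    refine ⟨p.map φ, hp.map _, ?_⟩
    rw [Polynomial.eval₂_map]
    exact hpb
  obtain ⟨y, hy⟩ := (IsIntegrallyClosed.isIntegral_iff (R := V) (K := F)).mp hint
  rw [← hy]
  exact y.2

end Basic

section Norm

variable {R E F F' : Type*} [CommRing R] [Field E]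
  [Field F] [Algebra E F] [Field F'] [Algebra E F'] [Algebra R F']

/-- The norm along `α` of an element which is integral over `α (chart)` lies in the chart. -/
theorem normAlong_mem_chart (α : F' →ₐ[E] F) {S : Set F'} {b : F}
    (hint : ∃ p : Polynomial F', p.Monic ∧ (∀ i, p.coeff i ∈ chart R S) ∧
      (p.map (α : F' →+* F)).eval b = 0) :
    S29.H395.normAlong α b ∈ chart R S := by
  obtain ⟨p, hpm, hpc, hp0⟩ := hint
  letI : Algebra F' F := AlgebraicCurve.algebraAlong α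
  have hlift : p ∈ Polynomial.lifts
      (algebraMap (integralClosure (Algebra.adjoin R S) F') F') := by
    rw [Polynomial.lifts_iff_coeff_lifts]
    intro n
    exact ⟨⟨p.coeff n, hpc n⟩, rfl⟩
  obtain ⟨P, hP, -, hPm⟩ := Polynomial.lifts_and_degree_eq_and_monic hlift hpm
  have hb : IsIntegral (integralClosure (Algebra.adjoin R S) F') b := by
    refine ⟨P, hPm, ?_⟩
    have h1 : Polynomial.eval₂ (algebraMap (integralClosure (Algebra.adjoin R S) F') F) b P
        = ((P.map (algebraMap (integralClosure (Algebra.adjoin R S) F') F')).map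
            (algebraMap F' F)).eval b := by
      rw [Polynomial.map_map, Polynomial.eval_map]
      rfl
    rw [h1, hP]
    exact hp0
  have hN : IsIntegral (integralClosure (Algebra.adjoin R S) F') (Algebra.norm F' b) :=
    Algebra.isIntegral_norm F' hb
  have hN' : IsIntegral (Algebra.adjoin R S) (Algebra.norm F' b) := isIntegral_trans _ hN
  exact hN'

end Norm


section Main

variable {R E F F' : Type*} [CommRing R] [Field E] [Algebra R E]
  [Field F] [Algebra E F] [Algebra R F] [Field F'] [Algebra E F'] [Algebra R F']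
  [IsScalarTower R E F] [IsScalarTower R E F']

/-- Every closed point of the special fibre lies on one of the three components (`Qep3`). -/
theorem through_of_qep3 {w : R} {q : ℕ} {B : Subalgebra R F} {V₁ V₂ V₃ : ValuationSubring F}
    (hB₁ : ∀ b ∈ B, b ∈ V₁) (hB₂ : ∀ b ∈ B, b ∈ V₂) (hB₃ : ∀ b ∈ B, b ∈ V₃)
    (unif₁ : UnifAt V₁ (algebraMap R F w)) (unif₃ : UnifAt V₃ (algebraMap R F w))
    (ram₂ : ∃ t : F, UnifAt V₂ t ∧ UnitAt V₂ (algebraMap R F w * (t ^ (q - 1))⁻¹))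
    (qep : Qep3 w B V₁ V₂ V₃)
    (𝔪 : Ideal B) (h𝔪 : 𝔪.IsPrime) (hw : algebraMap R B w ∈ 𝔪) :
    Through B 𝔪 V₁ ∨ Through B 𝔪 V₂ ∨ Through B 𝔪 V₃ := by
  by_contra hcon
  simp only [not_or] at hcon
  obtain ⟨h1, h2, h3⟩ := hcon
  simp only [Through, not_forall] at h1 h2 h3
  obtain ⟨b₁, hb₁, hb₁'⟩ := h1
  obtain ⟨b₂, hb₂, hb₂'⟩ := h2
  obtain ⟨b₃, hb₃, hb₃'⟩ := h3
  obtain ⟨t, ht, hwt⟩ := ram₂
  set W : F := algebraMap R F w with hW
  have hW0 : W ≠ 0 := unif₁.1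
  have ht0 : t ≠ 0 := ht.1
  -- the product
  have key : ((b₁ * b₂ ^ (q - 1) * b₃ : B) : F) = (b₁ : F) * (b₂ : F) ^ (q - 1) * (b₃ : F) := by
    push_cast
    rfl
  have hV₁ : ((b₁ * b₂ ^ (q - 1) * b₃ : B) : F) * W⁻¹ ∈ V₁ := by
    rw [key]
    have e : (b₁ : F) * (b₂ : F) ^ (q - 1) * (b₃ : F) * W⁻¹
        = ((b₁ : F) * W⁻¹) * ((b₂ : F) ^ (q - 1) * (b₃ : F)) := by ring
    rw [e]
    exact V₁.mul_mem _ _ (unif₁.2.2 _ hb₁)
      (V₁.mul_mem _ _ (pow_mem (hB₁ _ b₂.2) _) (hB₁ _ b₃.2))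
  have hV₃ : ((b₁ * b₂ ^ (q - 1) * b₃ : B) : F) * W⁻¹ ∈ V₃ := by
    rw [key]
    have e : (b₁ : F) * (b₂ : F) ^ (q - 1) * (b₃ : F) * W⁻¹
        = ((b₃ : F) * W⁻¹) * ((b₁ : F) * (b₂ : F) ^ (q - 1)) := by ring
    rw [e]
    exact V₃.mul_mem _ _ (unif₃.2.2 _ hb₃)
      (V₃.mul_mem _ _ (hB₃ _ b₁.2) (pow_mem (hB₃ _ b₂.2) _))
  have hV₂ : ((b₁ * b₂ ^ (q - 1) * b₃ : B) : F) * W⁻¹ ∈ V₂ := by
    rw [key]
    have hu : (W * (t ^ (q - 1))⁻¹)⁻¹ ∈ V₂ := hwt.2.2
    have e : (b₁ : F) * (b₂ : F) ^ (q - 1) * (b₃ : F) * W⁻¹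
        = (((b₂ : F) * t⁻¹) ^ (q - 1) * (W * (t ^ (q - 1))⁻¹)⁻¹) * ((b₁ : F) * (b₃ : F)) := by
      have htq : t ^ (q - 1) ≠ 0 := pow_ne_zero _ ht0
      rw [mul_pow, inv_pow, mul_inv, inv_inv]
      field_simp
    rw [e]
    exact V₂.mul_mem _ _ (V₂.mul_mem _ _ (pow_mem (ht.2.2 _ hb₂) _) hu)
      (V₂.mul_mem _ _ (hB₂ _ b₁.2) (hB₂ _ b₃.2))
  obtain ⟨c, hc⟩ := qep (b₁ * b₂ ^ (q - 1) * b₃) hV₁ hV₂ hV₃
  have hmem : b₁ * b₂ ^ (q - 1) * b₃ ∈ 𝔪 := by
    rw [hc]
    exact 𝔪.mul_mem_right _ hw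
  rcases h𝔪.mem_or_mem hmem with h | h
  · rcases h𝔪.mem_or_mem h with h | h
    · exact hb₁' h
    · exact hb₂' (h𝔪.mem_of_pow_mem _ h)
  · exact hb₃' h

/-- **`unique_α` from the other fields.**  (For `unique_β`: apply with `(V₃, V₂, V₁)` and `β`.) -/
theorem unique_of_res {w : R} {q : ℕ} (hq : q ≠ 0) {α : F' →ₐ[E] F} {x : F} {x' : F'}
    {V₁ V₂ V₃ : ValuationSubring F}
    (hB₁ : ∀ b ∈ chart R ({x} : Set F), b ∈ V₁) (hB₂ : ∀ b ∈ chart R ({x} : Set F), b ∈ V₂)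
    (hB₃ : ∀ b ∈ chart R ({x} : Set F), b ∈ V₃)
    (unif₁ : UnifAt V₁ (algebraMap R F w)) (unif₃ : UnifAt V₃ (algebraMap R F w))
    (ram₂ : ∃ t : F, UnifAt V₂ t ∧ UnitAt V₂ (algebraMap R F w * (t ^ (q - 1))⁻¹))
    (qep : Qep3 w (chart R ({x} : Set F)) V₁ V₂ V₃)
    (hα : ∀ b ∈ chart R ({x'} : Set F'), α b ∈ chart R ({x} : Set F))
    (hint : ∀ b ∈ chart R ({x} : Set F), ∃ p : Polynomial F', p.Monic ∧
      (∀ i, p.coeff i ∈ chart R ({x'} : Set F')) ∧ (p.map (α : F' →+* F)).eval b = 0)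
    (res₁ : ∀ b ∈ chart R ({x} : Set F), ∃ b' ∈ chart R ({x'} : Set F'),
      b - α b' ∈ V₁.nonunits)
    (res₂ : ∀ b ∈ chart R ({x} : Set F), ∃ b' ∈ chart R ({x'} : Set F'),
      b - α b' ∈ V₂.nonunits)
    (nr₃ : ∀ y : F, UnitAt V₃ y → α (S29.H395.normAlong α y) - y ^ q ∈ V₃.nonunits)
    (𝔪 𝔪' : Ideal (chart R ({x} : Set F))) (h𝔪 : 𝔪.IsMaximal) (h𝔪' : 𝔪'.IsMaximal)
    (htri : IsTriple _ 𝔪 V₁ V₂ V₃)
    (hover : ∀ (b' : F') (h : b' ∈ chart R ({x'} : Set F')),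
      (⟨α b', hα b' h⟩ : chart R ({x} : Set F)) ∈ 𝔪 →
        (⟨α b', hα b' h⟩ : chart R ({x} : Set F)) ∈ 𝔪') :
    𝔪' = 𝔪 := by
  obtain ⟨ht₁, ht₂, ht₃⟩ := htri
  -- `w ∈ 𝔪'`
  have hwF : α (algebraMap R F' w) = algebraMap R F w := by
    rw [IsScalarTower.algebraMap_apply R E F', AlgHom.commutes,
      ← IsScalarTower.algebraMap_apply R E F]
  have hwB' : algebraMap R F' w ∈ chart R ({x'} : Set F') := Subalgebra.algebraMap_mem _ w
  have hweq : (⟨α (algebraMap R F' w), hα _ hwB'⟩ : chart R ({x} : Set F))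
      = algebraMap R (chart R ({x} : Set F)) w := Subtype.ext hwF
  have hw𝔪 : algebraMap R (chart R ({x} : Set F)) w ∈ 𝔪 := ht₁ _ unif₁.2.1
  have hw𝔪' : algebraMap R (chart R ({x} : Set F)) w ∈ 𝔪' := by
    rw [← hweq]
    exact hover _ hwB' (hweq ▸ hw𝔪)
  -- it suffices to prove `𝔪 ≤ 𝔪'`
  suffices hle : 𝔪 ≤ 𝔪' from (h𝔪.eq_of_le h𝔪'.ne_top hle).symm
  -- residue degree one
  have step : ∀ (V : ValuationSubring F), Through _ 𝔪 V → Through _ 𝔪' V →
      (∀ b ∈ chart R ({x} : Set F), ∃ b' ∈ chart R ({x'} : Set F'), b - α b' ∈ V.nonunits) →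
      𝔪 ≤ 𝔪' := by
    intro V hT hT' hres b hb
    obtain ⟨b', hb', hd⟩ := hres b b.2
    set c : chart R ({x} : Set F) := b - ⟨α b', hα b' hb'⟩ with hc
    have hcV : (c : F) ∈ V.nonunits := hd
    have h1 : (⟨α b', hα b' hb'⟩ : chart R ({x} : Set F)) ∈ 𝔪 := by
      have : (⟨α b', hα b' hb'⟩ : chart R ({x} : Set F)) = b - c := by rw [hc]; ring
      rw [this]
      exact 𝔪.sub_mem hb (hT c hcV)
    have h2 := hover b' hb' h1
    have : b = ⟨α b', hα b' hb'⟩ + c := by rw [hc]; ring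
    rw [this]
    exact 𝔪'.add_mem h2 (hT' c hcV)
  rcases through_of_qep3 hB₁ hB₂ hB₃ unif₁ unif₃ ram₂ qep 𝔪' h𝔪'.isPrime hw𝔪' with h | h | h
  · exact step V₁ ht₁ h res₁
  · exact step V₂ ht₂ h res₂
  · -- the radicial component
    intro b hb
    by_cases hbn : (b : F) ∈ V₃.nonunits
    · exact h b hbn
    · have hbV : (b : F) ∈ V₃ := hB₃ _ b.2
      have hb0 : (b : F) ≠ 0 := by
        intro h0
        apply hbn
        rw [h0, ValuationSubring.mem_nonunits_iff, map_zero]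
        exact zero_lt_one
      have hbinv : (b : F)⁻¹ ∈ V₃ := by
        by_contra hcon
        apply hbn
        rw [ValuationSubring.mem_nonunits_iff_exists_mem_maximalIdeal]
        refine ⟨hbV, ?_⟩
        rw [IsLocalRing.mem_maximalIdeal, mem_nonunits_iff]
        intro hu
        apply hcon
        obtain ⟨v, hv⟩ := hu.exists_right_inv
        have h1 : (b : F) * (v : F) = 1 := by
          have := congrArg (fun z : V₃ => (z : F)) hv
          simpa using this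
        rw [inv_eq_of_mul_eq_one_right h1]
        exact v.2
      have hN := nr₃ (b : F) ⟨hb0, hbV, hbinv⟩
      have hNB' : S29.H395.normAlong α (b : F) ∈ chart R ({x'} : Set F') :=
        normAlong_mem_chart α (hint _ b.2)
      set n : chart R ({x} : Set F) := ⟨α (S29.H395.normAlong α (b : F)), hα _ hNB'⟩ with hn
      have hcV : ((n - b ^ q : chart R ({x} : Set F)) : F) ∈ V₃.nonunits := hN
      have h1 : n ∈ 𝔪 := by
        have : n = (n - b ^ q) + b ^ q := by ring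
        rw [this]
        exact 𝔪.add_mem (ht₃ _ hcV) (𝔪.pow_mem_of_mem hb q (Nat.pos_of_ne_zero hq))
      have h2 : n ∈ 𝔪' := hover _ hNB' h1
      have h3 : b ^ q ∈ 𝔪' := by
        have : b ^ q = n - (n - b ^ q) := by ring
        rw [this]
        exact 𝔪'.sub_mem h2 (h _ hcV)
      exact h𝔪'.isPrime.mem_of_pow_mem _ h3

end Main

end Fermat.Agent.S36.H250

end
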